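import Fermat.Agent.EffectiveIsogeny.Level

/-!
# The least prime with different traces, on the Riemann hypothesis

With `l ≪ log p₀` the inequality at one level reads `√N ≪ L log ^ 14 N` for `N = p₀ - 1`, so
`p₀ ≪ L ^ 2 (1 + log L) ^ 28`.
-/

set_option autoImplicit false
set_option linter.style.haveILetI false

noncomputable section

open Filter WeierstrassCurve FA.Frob
open FA.ArtinHooley (logInt)
open FA.CyclicRed (AllFieldsRH badPrimes)
open scoped Classical Topology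

namespace FA.EffIsogeny

/-- **Inverting `√x ≪ L log ^ 14 x`.** -/
theorem exists_le_of_sqrt_le {C : ℝ} (hC : 0 ≤ C) : ∃ K : ℝ, 0 ≤ K ∧ ∀ x L : ℝ, 1 ≤ x → 1 ≤ L →
    √x ≤ C * L * Real.log x ^ 14 → x ≤ K * (L ^ 2 * (1 + Real.log L) ^ 28) := by
  obtain ⟨c, hc⟩ : ∃ c : ℝ, c = C * (56 : ℝ) ^ 14 + 1 := ⟨_, rfl⟩
  have hC56 : 0 ≤ C * (56 : ℝ) ^ 14 := mul_nonneg hC (by norm_num)
  have hc0 : 1 ≤ c := by linarith
  refine ⟨C ^ 2 * (4 * Real.log c + 4) ^ 28, by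
    have := Real.log_nonneg hc0
    positivity, fun x L hx hL h => ?_⟩
  have hx0 : 0 < x := by linarith
  have hlx : 0 ≤ Real.log x := Real.log_nonneg hx
  obtain ⟨u, hu⟩ : ∃ u, u = x ^ (1 / 4 : ℝ) := ⟨_, rfl⟩
  have hu0 : 0 < u := hu ▸ Real.rpow_pos_of_pos hx0 _
  have h1 : Real.log x ^ 14 ≤ (56 : ℝ) ^ 14 * u := by
    have h2 := Real.log_le_rpow_div hx0.le (show (0 : ℝ) < 1 / 56 by norm_num)
    have h3 := pow_le_pow_left₀ hlx (h2.trans_eq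
      (show x ^ (1 / 56 : ℝ) / (1 / 56) = 56 * x ^ (1 / 56 : ℝ) by ring)) 14
    rw [mul_pow, ← Real.rpow_natCast (x ^ (1 / 56 : ℝ)) 14, ← Real.rpow_mul hx0.le] at h3
    refine h3.trans (le_of_eq ?_)
    rw [hu]
    norm_num
  have hs : √x = u * u := by
    rw [hu, ← Real.rpow_add hx0, Real.sqrt_eq_rpow]
    norm_num
  have hul : u ≤ c * L := by
    have h4 := h.trans (mul_le_mul_of_nonneg_left h1 (show 0 ≤ C * L by positivity))
    rw [hs] at h4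
    refine le_of_mul_le_mul_right (h4.trans ?_) hu0
    rw [hc]
    have : 0 ≤ L * u := by positivity
    linarith
  have hlc := Real.log_nonneg hc0
  have hlL := Real.log_nonneg hL
  have h5 : Real.log x ≤ (4 * Real.log c + 4) * (1 + Real.log L) := by
    have h6 := Real.log_le_log hu0 hul
    rw [hu, Real.log_rpow hx0, Real.log_mul (by linarith) (by linarith)] at h6
    have : 0 ≤ Real.log c * Real.log L := mul_nonneg hlc hlL
    linarith
  have h7 := h.trans (mul_le_mul_of_nonneg_left (pow_le_pow_left₀ hlx h5 14)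
    (show 0 ≤ C * L by positivity))
  have h8 := pow_le_pow_left₀ (Real.sqrt_nonneg x) h7 2
  rw [Real.sq_sqrt hx0.le] at h8
  exact h8.trans (le_of_eq (by ring))

/-- **Serre's effective isogeny theorem.** -/
theorem exists_differ_le : ∃ B : ℝ, ∀ W W' : WeierstrassCurve ℤ, W.Δ ≠ 0 → W'.Δ ≠ 0 →
    AllFieldsRH →
    (∃ p : ℕ, p.Prime ∧ ¬ (p : ℤ) ∣ W.Δ ∧ ¬ (p : ℤ) ∣ W'.Δ ∧ W.apOfModel p ≠ W'.apOfModel p) →
    ∃ p : ℕ, p.Prime ∧ ¬ (p : ℤ) ∣ W.Δ ∧ ¬ (p : ℤ) ∣ W'.Δ ∧ W.apOfModel p ≠ W'.apOfModel p ∧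
      (p : ℝ) ≤ B * (logSize W W' ^ 2 * (1 + Real.log (logSize W W')) ^ 28) := by
  obtain ⟨K, hK, hsmall⟩ := exists_small_prime_not_dvd
  obtain ⟨A, hA, hlevel⟩ := exists_logInt_le
  obtain ⟨N₁, hN₁⟩ := eventually_atTop.1 ((tendsto_natCast_atTop_atTop.eventually
    ((FA.ArtinHooley.tendsto_logInt).eventually
      (Ici_mem_nhds (show (1 / 2 : ℝ) < 1 by norm_num)))).and
    ((Real.tendsto_log_atTop.comp tendsto_natCast_atTop_atTop).eventually_ge_atTop 1))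
  obtain ⟨K', hK', hinv⟩ := exists_le_of_sqrt_le
    (C := 2 * A * (14 * K + 1) ^ 9) (by positivity)
  refine ⟨max (2 * K') ((N₁ : ℝ) + 4), fun W W' hΔ hΔ' hGRH hex => ?_⟩
  haveI := ratCurve_isElliptic_of_Δ hΔ
  haveI := ratCurve_isElliptic_of_Δ hΔ'
  obtain ⟨L, hL⟩ : ∃ L, L = logSize W W' := ⟨_, rfl⟩
  rw [← hL]
  have hL1 : 1 ≤ L := hL ▸ one_le_logSize W W'
  have hG : 1 ≤ L ^ 2 * (1 + Real.log L) ^ 28 := one_le_mul_of_one_le_of_one_le
    (one_le_pow₀ hL1) (one_le_pow₀ (by linarith [Real.log_nonneg hL1]))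
  have hconst : ∀ p : ℕ, (p : ℝ) ≤ N₁ + 4 →
      (p : ℝ) ≤ max (2 * K') ((N₁ : ℝ) + 4) * (L ^ 2 * (1 + Real.log L) ^ 28) := fun p hp =>
    (hp.trans (le_max_right _ _)).trans (le_mul_of_one_le_right
      (le_max_of_le_right (by positivity)) hG)
  by_cases hd : ∃ p, Differs W W' p
  swap
  · obtain ⟨p, hp, h1, h2, h3⟩ := hex
    have hp2 : p = 2 := by
      by_contra hne
      refine hd ⟨p, hp, ?_, h3⟩
      rw [FA.CyclicRed.badPrimes, FA.CyclicRed.badPrimes, Finset.mem_union, Finset.mem_insert,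
        Finset.mem_insert]
      rintro ((h | h) | (h | h))
      exacts [hne h, h1 (Int.natCast_dvd.2 (Nat.dvd_of_mem_primeFactors h)), hne h,
        h2 (Int.natCast_dvd.2 (Nat.dvd_of_mem_primeFactors h))]
    refine ⟨p, hp, h1, h2, h3, hconst p ?_⟩
    rw [hp2]
    push_cast
    linarith [(Nat.cast_nonneg N₁ : (0 : ℝ) ≤ N₁)]
  obtain ⟨hp, hbad, hne⟩ := Nat.find_spec hd
  obtain ⟨p₀, hp₀⟩ : ∃ p₀, p₀ = Nat.find hd := ⟨_, rfl⟩
  rw [← hp₀] at hp hbad hne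
  have hb := hbad
  rw [Finset.mem_union, not_or] at hb
  refine ⟨p₀, hp, (FA.CyclicRed.good_of_not_mem hΔ hp hb.1).2,
    (FA.CyclicRed.good_of_not_mem hΔ' hp hb.2).2, hne, ?_⟩
  rcases le_or_gt p₀ (N₁ + 3) with hle | hgt
  · refine hconst p₀ ?_
    have : (p₀ : ℝ) ≤ (N₁ : ℝ) + 3 := by exact_mod_cast hle
    linarith
  obtain ⟨N, hN⟩ : ∃ N, p₀ = N + 1 := ⟨p₀ - 1, by omega⟩
  obtain ⟨hli, hLN⟩ := hN₁ N (by omega)
  change (1 / 2 : ℝ) ≤ _ at hli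
  simp only [Function.comp_apply] at hLN
  obtain ⟨d, hd0⟩ : ∃ d, d = (W.apOfModel p₀ - W'.apOfModel p₀).natAbs := ⟨_, rfl⟩
  have hd1 : d ≠ 0 := hd0 ▸ Int.natAbs_ne_zero.2 (sub_ne_zero.2 hne)
  obtain ⟨l, hl, hldvd, hlK⟩ := hsmall (d * p₀) (mul_ne_zero hd1 hp.ne_zero)
  have hlp : l ≠ p₀ := fun e => hldvd (e ▸ dvd_mul_left p₀ d)
  have hnel : (W.apOfModel p₀ : ZMod l) ≠ (W'.apOfModel p₀ : ZMod l) := fun e => hldvd (by
    rw [hd0]
    refine Dvd.dvd.mul_right (Int.natCast_dvd.1 ?_) _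
    rw [← ZMod.intCast_zmod_eq_zero_iff_dvd, Int.cast_sub, e, sub_self])
  have h := hlevel W W' hΔ hΔ' hGRH p₀ ⟨hp, hbad, hne⟩
    (fun q hq => Nat.find_min hd (hp₀ ▸ hq)) l hl hlp hnel N (by omega) (by omega) hLN
  rw [← hL] at h
  obtain ⟨t, ht⟩ : ∃ t, t = Real.log (N : ℝ) := ⟨_, rfl⟩
  rw [← ht] at hli hLN h
  have hN0 : (0 : ℝ) < N := Nat.cast_pos.2 (by omega)
  have hN1 : (1 : ℝ) ≤ N := Nat.one_le_cast.2 (by omega)
  have hlogp : Real.log p₀ ≤ 2 * t := by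
    rw [ht, show 2 * Real.log (N : ℝ) = Real.log ((N : ℝ) * N) by
      rw [Real.log_mul hN0.ne' hN0.ne']; ring]
    refine Real.log_le_log (Nat.cast_pos.2 hp.pos) ?_
    have : (2 : ℝ) ≤ N := Nat.ofNat_le_cast.2 (by omega)
    rw [hN]
    push_cast
    nlinarith
  have hlt : (l : ℝ) ≤ (14 * K + 1) * t := by
    have hdp : d * p₀ ≤ p₀ ^ 6 := by
      have h1 := (Int.natAbs_sub_le (W.apOfModel p₀) (W'.apOfModel p₀)).trans
        (Nat.add_le_add (abs_apOfModel_le W hp) (abs_apOfModel_le W' hp))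
      rw [← hd0] at h1
      refine (Nat.mul_le_mul_right p₀ h1).trans ?_
      have h2 : 6 ≤ p₀ ^ 3 := le_trans (by norm_num) (Nat.pow_le_pow_left hp.two_le 3)
      calc (3 * p₀ ^ 2 + 3 * p₀ ^ 2) * p₀ = 6 * p₀ ^ 3 := by ring
        _ ≤ p₀ ^ 3 * p₀ ^ 3 := Nat.mul_le_mul_right _ h2
        _ = p₀ ^ 6 := by ring
    have h3 : Real.log ((d * p₀ : ℕ) : ℝ) ≤ 6 * Real.log p₀ := by
      refine (Real.log_le_log (Nat.cast_pos.2 (Nat.pos_of_ne_zero (mul_ne_zero hd1 hp.ne_zero)))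
        (Nat.cast_le.2 hdp)).trans (le_of_eq ?_)
      rw [Nat.cast_pow, Real.log_pow]
      norm_num
    refine hlK.trans ?_
    have := mul_le_mul_of_nonneg_left (show 1 + Real.log ((d * p₀ : ℕ) : ℝ) ≤ 14 * t by linarith) hK
    linarith
  have hsq : √(N : ℝ) ≤ 2 * A * (14 * K + 1) ^ 9 * L * t ^ 14 := by
    rw [le_div_iff₀ hN0] at hli
    have h4 := h.trans (mul_le_mul_of_nonneg_right (mul_le_mul_of_nonneg_left
      (pow_le_pow_left₀ (Nat.cast_nonneg l) hlt 9) (show 0 ≤ A * L by positivity))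
      (show 0 ≤ √(N : ℝ) * t ^ 4 by positivity))
    refine le_of_mul_le_mul_right ?_ (Real.sqrt_pos.2 hN0)
    rw [Real.mul_self_sqrt hN0.le]
    have := mul_le_mul_of_nonneg_right h4 (show (0 : ℝ) ≤ 2 * t by linarith)
    linarith
  have hfin := hinv N L hN1 hL1 (ht ▸ hsq)
  have h5 := mul_le_mul_of_nonneg_right (le_max_left (2 * K') ((N₁ : ℝ) + 4))
    (show 0 ≤ L ^ 2 * (1 + Real.log L) ^ 28 by linarith)
  rw [hN]
  push_cast
  linarith

end FA.EffIsogeny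

end
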