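import Fermat.Agent.PointCountOmega.Count
import Mathlib.NumberTheory.Chebyshev

/-!
# Two curves at one level, on the Riemann hypothesis

If `p₀` is the least good prime at which the traces of two integral equations differ, and `l ≠ p₀`
a prime not dividing the difference, no prime below `p₀` has Frobenius traces different modulo `l`,
so `li N ≪ l ^ 8 (L + log l) √N log ^ 4 N` for `N < p₀`, `L = 1 + log |Δ Δ'|`, with an absolute
constant; such `l` is `O (1 + log p₀)` by Chebyshev.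
-/

set_option autoImplicit false
set_option linter.style.haveILetI false

noncomputable section

open Matrix Finset WeierstrassCurve FA.Frob
open FA.ArtinHooley (logInt)
open FA.CyclicRed (imageShare AllFieldsRH badPrimes)
open FA.TraceDist (glLevel)
open scoped Classical WeierstrassCurve.Affine

local notation "Qb" => AlgebraicClosure ℚ
local notation "GQ" => AlgebraicClosure ℚ ≃ₐ[ℚ] AlgebraicClosure ℚ

namespace FA.EffIsogeny

/-- The good primes with different traces, away from `2`. -/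
def Differs (W W' : WeierstrassCurve ℤ) (p : ℕ) : Prop :=
  p.Prime ∧ p ∉ badPrimes W ∪ badPrimes W' ∧ W.apOfModel p ≠ W'.apOfModel p

/-- `1 + log |Δ Δ'|`. -/
def logSize (W W' : WeierstrassCurve ℤ) : ℝ := 1 + Real.log ((W.Δ * W'.Δ).natAbs : ℝ)

theorem one_le_logSize (W W' : WeierstrassCurve ℤ) : 1 ≤ logSize W W' :=
  le_add_of_nonneg_right (Real.log_natCast_nonneg _)

theorem sum_badPrimes_le {W : WeierstrassCurve ℤ} (hΔ : W.Δ ≠ 0) :
    ∑ p ∈ badPrimes W, Real.log (p : ℝ) ≤ 1 + Real.log (W.Δ.natAbs : ℝ) := by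
  have h1 : ∑ p ∈ W.Δ.natAbs.primeFactors, Real.log (p : ℝ) ≤ Real.log (W.Δ.natAbs : ℝ) := by
    rw [← Real.log_prod fun p hp => Nat.cast_ne_zero.2
      (Nat.prime_of_mem_primeFactors hp).ne_zero, ← Nat.cast_prod]
    exact Real.log_le_log (Nat.cast_pos.2 (prod_pos fun p hp =>
      (Nat.prime_of_mem_primeFactors hp).pos)) (Nat.cast_le.2
        (Nat.le_of_dvd (Int.natAbs_pos.2 hΔ) (Nat.prod_primeFactors_dvd _)))
  rw [badPrimes]
  have h2 : Real.log ((2 : ℕ) : ℝ) ≤ 1 := by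
    push_cast
    linarith [Real.log_two_lt_d9]
  by_cases h : 2 ∈ W.Δ.natAbs.primeFactors
  · rw [insert_eq_of_mem h]
    linarith
  · rw [sum_insert h]
    linarith

theorem abs_apOfModel_le (W : WeierstrassCurve ℤ) {p : ℕ} (hp : p.Prime) :
    (W.apOfModel p).natAbs ≤ 3 * p ^ 2 := by
  haveI := Fact.mk hp
  have e : W.apOfModel p = (p : ℤ) + 1 - (FA.PointOmega.pointsMod W p : ℤ) := by
    simp [apOfModel, traceOfFrobenius, WeierstrassCurve.card, reductionMod,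
      FA.PointOmega.pointsMod]
  obtain ⟨-, h⟩ := FA.PointOmega.pointsMod_pos W p
  have h2 : 1 ≤ p ^ 2 := Nat.one_le_pow _ _ hp.pos
  have h3 : p ≤ p ^ 2 := Nat.le_self_pow two_ne_zero p
  omega

/-- **A small prime not dividing `M`.** -/
theorem exists_small_prime_not_dvd : ∃ K : ℝ, 0 ≤ K ∧ ∀ M : ℕ, M ≠ 0 →
    ∃ l : ℕ, l.Prime ∧ ¬ l ∣ M ∧ (l : ℝ) ≤ K * (1 + Real.log M) := by
  refine ⟨48 ^ 4 + 5, by norm_num, fun M hM => ?_⟩
  have hlM : 0 ≤ Real.log M := Real.log_natCast_nonneg M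
  obtain ⟨n, hn⟩ : ∃ n : ℕ, n = ⌈4 * Real.log M⌉₊ + 48 ^ 4 := ⟨_, rfl⟩
  have hnR : (n : ℝ) = (⌈4 * Real.log M⌉₊ : ℝ) + 48 ^ 4 := by
    rw [hn]
    norm_num
  have hn1 : 4 * Real.log M + 48 ^ 4 ≤ n := by linarith [Nat.le_ceil (4 * Real.log (M : ℝ))]
  have hn0 : (0 : ℝ) < n := by linarith
  by_contra hc
  have hsub : ∀ p ∈ Nat.primesLE n, p ∣ M := fun p hp => by
    by_contra hpM
    rw [Nat.mem_primesLE] at hp
    refine hc ⟨p, hp.2, hpM, le_trans (Nat.cast_le.2 hp.1) ?_⟩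
    have := (Nat.ceil_lt_add_one (show 0 ≤ 4 * Real.log (M : ℝ) by linarith)).le
    have h3 := mul_nonneg (show (0 : ℝ) ≤ 48 ^ 4 + 1 by norm_num) hlM
    rw [hnR]
    linarith
  have h1 : Chebyshev.theta n ≤ Real.log M := by
    rw [Chebyshev.theta_eq_sum_primesLE_log, ← Real.log_prod fun p hp =>
      Nat.cast_ne_zero.2 (Nat.mem_primesLE.1 hp).2.ne_zero, ← Nat.cast_prod]
    refine Real.log_le_log (Nat.cast_pos.2 (prod_pos fun p hp =>
      (Nat.mem_primesLE.1 hp).2.pos)) (Nat.cast_le.2 (Nat.le_of_dvd (Nat.pos_of_ne_zero hM) ?_))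
    exact Finset.prod_primes_dvd _ (fun p hp => (Nat.mem_primesLE.1 hp).2.prime) hsub
  have h2 := Chebyshev.theta_ge n
  obtain ⟨u, hu⟩ : ∃ u, u = (n : ℝ) ^ (1 / 4 : ℝ) := ⟨_, rfl⟩
  have hu4 : u ^ 4 = n := by
    rw [hu, ← Real.rpow_natCast, ← Real.rpow_mul hn0.le]
    norm_num
  have hu0 : 0 ≤ u := hu ▸ Real.rpow_nonneg hn0.le _
  have hu48 : 48 ≤ u := le_of_pow_le_pow_left₀ (by norm_num : (4 : ℕ) ≠ 0) hu0 (by linarith)
  have hlog : Real.log n ≤ 4 * u := by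
    have := Real.log_le_rpow_div hn0.le (show (0 : ℝ) < 1 / 4 by norm_num)
    rw [← hu] at this
    linarith
  have hsqrt : √(n : ℝ) = u ^ 2 := by
    rw [← hu4, show u ^ 4 = (u ^ 2) ^ 2 by ring, Real.sqrt_sq (sq_nonneg u)]
  have hlog1 : Real.log ((n : ℝ) + 1) ≤ 2 * √(n : ℝ) * Real.log n := by
    have hn2 : (2 : ℝ) ≤ n := by linarith
    have h3 : Real.log ((n : ℝ) + 1) ≤ 2 * Real.log n := by
      rw [show 2 * Real.log (n : ℝ) = Real.log ((n : ℝ) * n) by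
        rw [Real.log_mul hn0.ne' hn0.ne']; ring]
      exact Real.log_le_log (by linarith) (by nlinarith)
    refine h3.trans (mul_le_mul_of_nonneg_right ?_ (Real.log_natCast_nonneg n))
    linarith [Real.one_le_sqrt.2 (show (1 : ℝ) ≤ n by linarith)]
  rw [hsqrt] at h2 hlog1
  have h4 := mul_le_mul_of_nonneg_left hlog (show 0 ≤ 4 * u ^ 2 by positivity)
  have h5 := mul_le_mul_of_nonneg_right hu48 (pow_nonneg hu0 3)
  have h6 : 0.6931471803 * (n : ℝ) ≤ (n : ℝ) * Real.log 2 := by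
    rw [mul_comm]
    exact mul_le_mul_of_nonneg_left Real.log_two_gt_d9.le hn0.le
  linarith



/-- **The inequality.** -/
theorem exists_logInt_le : ∃ A : ℝ, 0 ≤ A ∧
    ∀ (W W' : WeierstrassCurve ℤ) [(ratCurve W).IsElliptic] [(ratCurve W').IsElliptic],
    W.Δ ≠ 0 → W'.Δ ≠ 0 → AllFieldsRH → ∀ p₀ : ℕ, Differs W W' p₀ →
    (∀ q < p₀, ¬ Differs W W' q) → ∀ l : ℕ, l.Prime → l ≠ p₀ →
    (W.apOfModel p₀ : ZMod l) ≠ (W'.apOfModel p₀ : ZMod l) → ∀ N : ℕ, N < p₀ → 2 ≤ N →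
    1 ≤ Real.log N →
    logInt N ≤ A * logSize W W' * (l : ℝ) ^ 9 * (√(N : ℝ) * Real.log N ^ 4) := by
  obtain ⟨A, hA, hcount⟩ := FA.CyclicRed.exists_count_of_GRH
  refine ⟨(A + 2) * 15, by positivity, fun W W' _ _ hΔ hΔ' hGRH p₀ hp₀ hmin l hl hlp hne N hN hN2
    hLN => ?_⟩
  haveI : NeZero l := ⟨hl.ne_zero⟩
  obtain ⟨ρ, hρ⟩ : ∃ ρ, ρ = (glLevel W l).prod (glLevel W' l) := ⟨_, rfl⟩
  obtain ⟨X, hX⟩ : ∃ X : Set (GL (Fin 2) (ZMod l) × GL (Fin 2) (ZMod l)),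
      X = {g | g.1.1.trace ≠ g.2.1.trace} := ⟨_, rfl⟩
  obtain ⟨S, hS⟩ : ∃ S, S = insert l (badPrimes W ∪ badPrimes W') := ⟨_, rfl⟩
  have hSl : ∀ p : ℕ, p.Prime → p ∉ S → ¬ p ∣ l ∧ p ∉ badPrimes W ∪ badPrimes W' ∧
      p ∉ badPrimes W ∧ p ∉ badPrimes W' := fun p hp hpS => by
    rw [hS, mem_insert, not_or] at hpS
    have h := hpS.2
    rw [mem_union, not_or] at h
    exact ⟨fun hd => hpS.1 ((Nat.prime_dvd_prime_iff_eq hp hl).1 hd), hpS.2, h.1, h.2⟩
  have hfrob : ∀ p : ℕ, p.Prime → p ∉ S → ∀ B : ValuationSubring Qb, B.LiesOverPrime p →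
      ∀ σ : GQ, B.IsFrobeniusAt σ p →
      ((W.apOfModel p : ZMod l) ≠ (W'.apOfModel p : ZMod l) ↔ ρ σ ∈ X) :=
      fun p hp hpS B hB σ hσ => by
    obtain ⟨hpl, -, hb, hb'⟩ := hSl p hp hpS
    rw [hX, hρ, Set.mem_ofPred_eq, ← (FA.TraceDist.repLevel_frobenius (W := W) (N := l) hp hpl
        (FA.CyclicRed.good_of_not_mem hΔ hp hb).2 hB hσ).1,
      ← (FA.TraceDist.repLevel_frobenius (W := W') (N := l) hp hpl
        (FA.CyclicRed.good_of_not_mem hΔ' hp hb').2 hB hσ).1]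
    exact Iff.rfl
  have hopen : IsOpen (ρ.ker : Set GQ) := by
    rw [hρ, MonoidHom.ker_prod, Subgroup.coe_inf]
    exact FA.TraceDist.isOpen_ker_glLevel.inter FA.TraceDist.isOpen_ker_glLevel
  have h1 := hcount ρ hopen hGRH S
    (fun p hp => by
      rw [hS, mem_insert, mem_union] at hp
      rcases hp with rfl | hp | hp
      exacts [hl, FA.CyclicRed.prime_of_mem_badPrimes W hp,
        FA.CyclicRed.prime_of_mem_badPrimes W' hp])
    (fun p hp hpS B hB => by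
      obtain ⟨hpl, -, hb, hb'⟩ := hSl p hp hpS
      rw [hρ, MonoidHom.ker_prod]
      exact le_inf (FA.CyclicRed.inertia_le_ker_glLevel W hp
          (FA.CyclicRed.good_of_not_mem hΔ hp hb).2 hpl hB)
        (FA.CyclicRed.inertia_le_ker_glLevel W' hp
          (FA.CyclicRed.good_of_not_mem hΔ' hp hb').2 hpl hB))
    X (fun g hg x => by
      rw [hX, Set.mem_ofPred_eq] at hg ⊢
      simp only [Prod.fst_mul, Prod.snd_mul, Prod.fst_inv, Prod.snd_inv, Units.val_mul,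
        trace_units_conj]
      exact hg)
    (fun p => p ∉ badPrimes W ∪ badPrimes W' ∧
      (W.apOfModel p : ZMod l) ≠ (W'.apOfModel p : ZMod l))
    (fun p hp hpS B hB σ hσ => by
      rw [and_iff_right (hSl p hp hpS).2.1]
      exact hfrob p hp hpS B hB σ hσ) N hN2
  have hzero : ∀ p ∈ Icc 1 N, ¬ (p.Prime ∧ (p ∉ badPrimes W ∪ badPrimes W' ∧
      (W.apOfModel p : ZMod l) ≠ (W'.apOfModel p : ZMod l))) := fun p hp h =>
    hmin p ((mem_Icc.1 hp).2.trans_lt hN) ⟨h.1, h.2.1, fun e => h.2.2 (by rw [e])⟩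
  have hnone : ∀ s : Finset ℕ, (∀ p ∈ s, False) → s.card = 0 := fun s h =>
    card_eq_zero.2 (eq_empty_of_forall_notMem h)
  rw [hnone] at h1
  swap
  · intro p hp
    simp only [mem_filter] at hp
    exact hzero p hp.1 hp.2
  rw [imageShare] at h1
  obtain ⟨n, hn⟩ : ∃ n : ℕ, n = Nat.card ρ.range := ⟨_, rfl⟩
  obtain ⟨x, hx⟩ : ∃ x : ℕ, x = Nat.card {g : ρ.range // (g : _ × _) ∈ X} := ⟨_, rfl⟩
  have hx1 : (1 : ℝ) ≤ x := by
    have hp₀S : p₀ ∉ S := by
      rw [hS, mem_insert, not_or]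
      exact ⟨hlp.symm, hp₀.2.1⟩
    obtain ⟨B, hB⟩ := FA.Deform.exists_liesOverPrime hp₀.1
    obtain ⟨σ, hσ⟩ := FA.Deform.exists_isFrobeniusAt hp₀.1 hB
    haveI : Nonempty {g : ρ.range // (g : _ × _) ∈ X} :=
      ⟨⟨⟨ρ σ, σ, rfl⟩, (hfrob p₀ hp₀.1 hp₀S B hB σ hσ).1 hne⟩⟩
    rw [hx, Nat.one_le_cast]
    exact Nat.card_pos
  have hn0 : (1 : ℝ) ≤ n := by
    rw [hn, Nat.one_le_cast]
    exact Nat.card_pos
  obtain ⟨R, hR⟩ : ∃ R, R = √(N : ℝ) * Real.log N ^ 4 := ⟨_, rfl⟩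
  rw [← hx, ← hn, ← hR, div_mul_cancel₀ _ (by linarith : (n : ℝ) ≠ 0)] at h1
  rw [← hR]
  have hR1 : 1 ≤ R := hR ▸ one_le_mul_of_one_le_of_one_le
    (Real.one_le_sqrt.2 (Nat.one_le_cast.2 (show 1 ≤ N by omega))) (one_le_pow₀ hLN)
  obtain ⟨T, hT⟩ : ∃ T, T = ∑ p ∈ S, Real.log (p : ℝ) := ⟨_, rfl⟩
  obtain ⟨L, hL⟩ : ∃ L, L = logSize W W' := ⟨_, rfl⟩
  rw [← hT, Nat.cast_zero, zero_sub, abs_neg] at h1
  rw [← hL]
  have hL1 : 1 ≤ L := hL ▸ one_le_logSize W W'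
  have hl0 : 0 ≤ Real.log l := Real.log_natCast_nonneg l
  have hT0 : 0 ≤ T := hT ▸ sum_nonneg fun p _ => Real.log_natCast_nonneg p
  have hTle : T ≤ Real.log l + 2 * L := by
    have hbad := add_le_add (sum_badPrimes_le hΔ) (sum_badPrimes_le hΔ')
    have hu : ∑ p ∈ badPrimes W ∪ badPrimes W', Real.log (p : ℝ) ≤ 2 * L := by
      rw [hL, logSize, Int.natAbs_mul, Nat.cast_mul, Real.log_mul
        (Nat.cast_ne_zero.2 (Int.natAbs_ne_zero.2 hΔ))
        (Nat.cast_ne_zero.2 (Int.natAbs_ne_zero.2 hΔ'))]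
      linarith [Real.log_natCast_nonneg W.Δ.natAbs, Real.log_natCast_nonneg W'.Δ.natAbs,
        sum_union_inter (s₁ := badPrimes W) (s₂ := badPrimes W') (f := fun p : ℕ => Real.log p),
        sum_nonneg (s := badPrimes W ∩ badPrimes W') fun p _ => Real.log_natCast_nonneg p]
    rw [hT, hS]
    by_cases h : l ∈ badPrimes W ∪ badPrimes W'
    · rw [insert_eq_of_mem h]
      linarith
    · rw [sum_insert h]
      linarith
  have hcard : (S.card : ℝ) ≤ 2 * T := by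
    rw [hT, mul_sum]
    refine le_trans (le_of_eq (by simp)) (card_nsmul_le_sum S _ (1 : ℝ) fun p hp => ?_)
    have hp' : p.Prime := by
      rw [hS, mem_insert, mem_union] at hp
      rcases hp with rfl | hp | hp
      exacts [hl, FA.CyclicRed.prime_of_mem_badPrimes W hp,
        FA.CyclicRed.prime_of_mem_badPrimes W' hp]
    linarith [Real.log_le_log two_pos (Nat.ofNat_le_cast.2 hp'.two_le : (2 : ℝ) ≤ p),
      Real.log_two_gt_d9]
  have hnl : (n : ℝ) ≤ (l : ℝ) ^ 8 := by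
    have h := (Subgroup.card_le_card_group ρ.range).trans_eq (Nat.card_prod _ _)
    have h2 := h.trans (Nat.mul_le_mul (FA.CyclicRed.natCard_gl_le l)
      (FA.CyclicRed.natCard_gl_le l))
    rw [← hn, ← pow_add] at h2
    exact_mod_cast h2
  have hlogn : Real.log n ≤ 8 * Real.log l := by
    refine (Real.log_le_log (by linarith) hnl).trans (le_of_eq ?_)
    rw [Real.log_pow]
    norm_num
  have hln0 : 0 ≤ Real.log n := Real.log_natCast_nonneg n
  obtain ⟨U, hU⟩ : ∃ U, U = 2 + Real.log n + T := ⟨_, rfl⟩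
  rw [← hU] at h1
  have hll : Real.log l ≤ (l : ℝ) - 1 := Real.log_le_sub_one_of_pos (Nat.cast_pos.2 hl.pos)
  have hUl : U ≤ 15 * L * l := by
    have hl1 : (1 : ℝ) ≤ l := Nat.one_le_cast.2 hl.one_le
    have := mul_le_mul_of_nonneg_right hL1 (show (0 : ℝ) ≤ l - 1 by linarith)
    have := mul_le_mul_of_nonneg_left hl1 (show (0 : ℝ) ≤ L by linarith)
    linarith
  have h2 : (x : ℝ) * logInt N ≤ (x : ℝ) * ((n : ℝ) * ((A + 2) * U * R)) := by
    have hE : A * (x : ℝ) * U * R + S.card ≤ (x : ℝ) * ((A + 2) * U * R) := by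
      have := one_le_mul_of_one_le_of_one_le hx1 hR1
      have h3 := mul_le_mul_of_nonneg_left this (show 0 ≤ 2 * U by linarith)
      linarith
    have h3 := mul_le_mul_of_nonneg_left ((abs_le.1 h1).2.trans hE) (show (0 : ℝ) ≤ n by linarith)
    rw [← mul_assoc, mul_div_cancel₀ _ (by linarith : (n : ℝ) ≠ 0)] at h3
    linarith
  refine (le_of_mul_le_mul_left h2 (by linarith)).trans ?_
  refine (mul_le_mul hnl (mul_le_mul_of_nonneg_right (mul_le_mul_of_nonneg_left hUl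
    (show 0 ≤ A + 2 by linarith)) (by linarith)) ?_ (by positivity)).trans (le_of_eq (by ring))
  exact mul_nonneg (mul_nonneg (by linarith) (by linarith)) (by linarith)

end FA.EffIsogeny

end
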